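import Mathlib
import Fermat.Prelude.Def_EllipticCurve_FrobeniusTrace

/-!
# P-CHEB: interfaces for the field-crossing proof of Chebotarev's theorem (existence form)

* `NormClassPrimesStatement` (CHEB-C, analytic input, "Dirichlet's theorem over a number field"):
  if `E(ζ_m)/E` has full degree `m - 1` (`m` prime), every residue class `t` prime to `m`
  contains the norm of a degree-one prime of `E` outside any given finite set.
* `ChebotarevNFStatement` (CHEB-NF, number-field form of Chebotarev, existence version): every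
  element of the Galois group of a finite Galois extension `L/ℚ` is an arithmetic Frobenius at
  some prime of `L` over some rational prime outside any given finite set.
* `ChebotarevStatement` (CHEB, prelude language): every element of `Gal(ℚ̄/ℚ)` agrees on any
  finite extension of `ℚ` with a Frobenius element (in the sense of
  `ValuationSubring.IsFrobeniusAt`) at a place over a prime outside any given finite set.

Route: CHEB-C ⟹ CHEB-NF (field crossing with `ℚ(ζ_m)`, pure Galois theory) ⟹ CHEB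
(places of `ℚ̄` over a prime of a number field + Frobenius lifts).
-/

set_option autoImplicit false

open scoped NumberField

namespace Fermat.Agent.H87.Cheb

/-- **CHEB-C** (analytic input): Dirichlet's theorem for norms of degree-one primes of a number
field `E` which is linearly disjoint from `ℚ(ζ_m)`, `m` prime. -/
def NormClassPrimesStatement : Prop :=
  ∀ (E : Type) [Field E] [NumberField E] (m : ℕ) [Fact m.Prime]
    (M : Type) [Field M] [NumberField M] [Algebra E M] [IsCyclotomicExtension {m} E M],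
    Module.finrank E M = m - 1 →
    ∀ (t : ℕ), ¬ m ∣ t → ∀ (S : Finset ℕ),
    ∃ 𝔮 : Ideal (𝓞 E), 𝔮.IsPrime ∧ (Ideal.absNorm 𝔮).Prime ∧ Ideal.absNorm 𝔮 ∉ S ∧
      Ideal.absNorm 𝔮 % m = t % m

/-- **CHEB-NF** (Chebotarev, existence form, for a Galois number field): every `σ ∈ Gal(L/ℚ)`
is an arithmetic Frobenius: `σ x ≡ x ^ ℓ` modulo a prime `𝔏` of `L` over a prime `ℓ ∉ S`. -/
def ChebotarevNFStatement : Prop :=
  ∀ (L : Type) [Field L] [NumberField L] [IsGalois ℚ L] (σ : L ≃ₐ[ℚ] L) (S : Finset ℕ),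
    ∃ (ℓ : ℕ) (𝔏 : Ideal (𝓞 L)), ℓ.Prime ∧ ℓ ∉ S ∧ 𝔏.IsPrime ∧ ((ℓ : ℕ) : 𝓞 L) ∈ 𝔏 ∧
      ∀ x : 𝓞 L, NumberField.RingOfIntegers.mapRingEquiv σ.toRingEquiv x - x ^ ℓ ∈ 𝔏

/-- **CHEB** (Chebotarev, existence form, in the language of the prelude): Frobenius elements at
places over primes outside `S` are dense in `Gal(ℚ̄/ℚ)`. -/
def ChebotarevStatement : Prop :=
  ∀ (F : IntermediateField ℚ (AlgebraicClosure ℚ)), FiniteDimensional ℚ F →
    ∀ (g : AlgebraicClosure ℚ ≃ₐ[ℚ] AlgebraicClosure ℚ) (S : Finset ℕ),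
    ∃ (ℓ : ℕ) (A : ValuationSubring (AlgebraicClosure ℚ))
      (φ : AlgebraicClosure ℚ ≃ₐ[ℚ] AlgebraicClosure ℚ),
      ℓ.Prime ∧ ℓ ∉ S ∧ A.LiesOverPrime ℓ ∧ A.IsFrobeniusAt φ ℓ ∧ ∀ x ∈ F, φ x = g x

end Fermat.Agent.H87.Cheb
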