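import Mathlib
import Fermat.Agent.H87.Cheb.Interfaces

/-!
# P-CHEB, CHEB-B part 1: the field `M = L(ζ_m)` for a Galois number field `L` and a prime `m`
not dividing the discriminant of `L`.

* `isGalois_rat_cyclotomic`: `M/ℚ` is Galois.
* `finrank_cyclotomic_of_not_dvd_discr`: `[M : L] = m - 1`.
-/

set_option autoImplicit false

open scoped NumberField
open Polynomial

namespace Fermat.Agent.H87.Cheb

/-- `L(ζ_m)` is Galois over `ℚ` if `L` is. -/
theorem isGalois_rat_cyclotomic (L : Type) [Field L] [NumberField L] [IsGalois ℚ L] (m : ℕ)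
    [NeZero m] (M : Type) [Field M] [NumberField M] [Algebra L M]
    [IsCyclotomicExtension {m} L M] : IsGalois ℚ M := by
  obtain ⟨p, hp, hsplit⟩ := IsGalois.is_separable_splitting_field ℚ L
  have h1 : IsSplittingField L M ((X ^ m - 1 : ℚ[X]).map (algebraMap ℚ L)) := by
    have := IsCyclotomicExtension.isSplittingField_X_pow_sub_one m L M
    simpa using this
  have h0 : (X ^ m - 1 : ℚ[X]) ≠ 0 := X_pow_sub_C_ne_zero (NeZero.pos m) (1 : ℚ)
  have h2 : IsSplittingField ℚ M (p * (X ^ m - 1)) :=
    IsSplittingField.mul (K := L) M p (X ^ m - 1) hp.ne_zero h0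
  have : Normal ℚ M := Normal.of_isSplittingField (p * (X ^ m - 1))
  exact ⟨⟩

/-- `[L(ζ_m) : L] = m - 1` if the prime `m` does not divide the discriminant of the Galois
number field `L`. -/
theorem finrank_cyclotomic_of_not_dvd_discr (L : Type) [Field L] [NumberField L] [IsGalois ℚ L]
    (m : ℕ) [hm : Fact m.Prime] (hdisc : ¬ (m : ℤ) ∣ NumberField.discr L)
    (M : Type) [Field M] [NumberField M] [Algebra L M] [IsCyclotomicExtension {m} L M] :
    Module.finrank L M = m - 1 := by
  have : NeZero m := ⟨hm.out.ne_zero⟩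
  obtain ⟨ζ, hζ⟩ := IsCyclotomicExtension.exists_isPrimitiveRoot L M (Set.mem_singleton m)
    (NeZero.ne m)
  -- the two subfields of `M`
  let L' : IntermediateField ℚ M := (IsScalarTower.toAlgHom ℚ L M).fieldRange
  let C : IntermediateField ℚ M := IntermediateField.adjoin ℚ {ζ}
  have hC : IsCyclotomicExtension {m} ℚ C := hζ.intermediateField_adjoin_isCyclotomicExtension ℚ
  have hCgal : IsGalois ℚ C := IsCyclotomicExtension.isGalois {m} ℚ C
  -- discriminants
  let e : L ≃ₐ[ℚ] L' := AlgEquiv.ofInjectiveField (IsScalarTower.toAlgHom ℚ L M)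
  have hdL : NumberField.discr L' = NumberField.discr L :=
    (NumberField.discr_eq_discr_of_algEquiv L e).symm
  have hdC : NumberField.discr C = (-1) ^ ((m - 1) / 2) * (m : ℤ) ^ (m - 2) :=
    IsCyclotomicExtension.Rat.discr_prime m C
  have hcop : IsCoprime (NumberField.discr C) (NumberField.discr L') := by
    rw [hdC, hdL]
    have h1 : IsCoprime (m : ℤ) (NumberField.discr L) :=
      (Nat.prime_iff_prime_int.mp hm.out).coprime_iff_not_dvd.mpr hdisc
    have h2 : IsCoprime ((m : ℤ) ^ (m - 2)) (NumberField.discr L) := h1.pow_left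
    have hu : IsUnit ((-1 : ℤ) ^ ((m - 1) / 2)) := (isUnit_neg_one (α := ℤ)).pow _
    exact (isCoprime_mul_unit_left_left hu _ _).mpr h2
  have hdisj : C.LinearDisjoint L' :=
    NumberField.linearDisjoint_of_isGalois_isCoprime_discr M C L' hcop
  -- the compositum is everything
  have htop : C ⊔ L' = ⊤ := by
    rw [eq_top_iff]
    intro x hx0
    clear hx0
    have hx : x ∈ Algebra.adjoin L ({ζ} : Set M) := by
      rw [IsCyclotomicExtension.adjoin_primitive_root_eq_top hζ]
      exact Algebra.mem_top
    induction hx using Algebra.adjoin_induction with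
    | mem y hy =>
      rw [Set.mem_singleton_iff] at hy
      subst hy
      exact (le_sup_left : C ≤ C ⊔ L') (IntermediateField.mem_adjoin_simple_self ℚ _)
    | algebraMap r =>
      exact (le_sup_right : L' ≤ C ⊔ L') ⟨r, rfl⟩
    | add y z _ _ hy hz => exact add_mem hy hz
    | mul y z _ _ hy hz => exact mul_mem hy hz
  have h1 := hdisj.finrank_sup
  rw [htop, IntermediateField.finrank_top', IsCyclotomicExtension.Rat.finrank m C,
    Nat.totient_prime hm.out] at h1
  have h2 : Module.finrank ℚ L' = Module.finrank ℚ L := e.toLinearEquiv.finrank_eq.symm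
  have h3 := Module.finrank_mul_finrank ℚ L M
  rw [h1, h2, mul_comm] at h3
  have hpos : 0 < Module.finrank ℚ L := Module.finrank_pos
  exact Nat.eq_of_mul_eq_mul_left hpos (by rw [mul_comm, h3, mul_comm])

end Fermat.Agent.H87.Cheb
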