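import Mathlib
import Fermat.Agent.H87.Cheb.Crossing1

/-!
# P-CHEB, CHEB-B part 2: the automorphism `g = (σ, τ)` of `M = L(ζ_m)` and its fixed field
-/

set_option autoImplicit false

open scoped NumberField
open Polynomial

namespace Fermat.Agent.H87.Cheb

section

variable {L : Type} [Field L] [NumberField L] {m : ℕ} [NeZero m] {M : Type} [Field M]
  [NumberField M] [Algebra L M] [IsCyclotomicExtension {m} L M]

omit [NumberField L] in
/-- Two `ℚ`-automorphisms of `M = L(ζ)` which agree on `L` and on `ζ` are equal. -/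
theorem algEquiv_ext_of_adjoin {ζ : M} (hζ : IsPrimitiveRoot ζ m) (g₁ g₂ : M ≃ₐ[ℚ] M)
    (hL : ∀ x : L, g₁ (algebraMap L M x) = g₂ (algebraMap L M x)) (hz : g₁ ζ = g₂ ζ) :
    g₁ = g₂ := by
  ext x
  have hx : x ∈ Algebra.adjoin L ({ζ} : Set M) := by
    rw [IsCyclotomicExtension.adjoin_primitive_root_eq_top hζ]
    exact Algebra.mem_top
  induction hx using Algebra.adjoin_induction with
  | mem y hy =>
    rw [Set.mem_singleton_iff] at hy
    subst hy
    exact hz
  | algebraMap r => exact hL r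
  | add y z _ _ hy hz' => rw [map_add, map_add, hy, hz']
  | mul y z _ _ hy hz' => rw [map_mul, map_mul, hy, hz']

omit [IsCyclotomicExtension {m} L M] in
/-- The exponent of an `L`-automorphism does not depend on the base field. -/
theorem autToPow_restrictScalars {ζ : M} (hζ : IsPrimitiveRoot ζ m) (τ : M ≃ₐ[L] M) :
    hζ.autToPow ℚ (τ.restrictScalars ℚ) = hζ.autToPow L τ := by
  have h1 := hζ.autToPow_spec ℚ (τ.restrictScalars ℚ)
  have h2 := hζ.autToPow_spec L τ
  have h3 : ζ ^ ((hζ.autToPow ℚ (τ.restrictScalars ℚ) : (ZMod m)ˣ) : ZMod m).val =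
      ζ ^ ((hζ.autToPow L τ : (ZMod m)ˣ) : ZMod m).val := by
    rw [h1, h2]
    rfl
  have h4 := hζ.pow_inj (ZMod.val_lt _) (ZMod.val_lt _) h3
  exact Units.ext (ZMod.val_injective m h4)

/-- Powers of an extension of `σ` extend the powers of `σ`. -/
theorem pow_apply_algebraMap (σ : L ≃ₐ[ℚ] L) (g : M ≃ₐ[ℚ] M)
    (hg : ∀ x : L, g (algebraMap L M x) = algebraMap L M (σ x)) (k : ℕ) (x : L) :
    (g ^ k) (algebraMap L M x) = algebraMap L M ((σ ^ k) x) := by
  induction k generalizing x with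
  | zero => simp
  | succ k ih =>
    rw [pow_succ, pow_succ, AlgEquiv.mul_apply, AlgEquiv.mul_apply, hg, ih]

end

section

variable {L : Type} [Field L] [NumberField L] [IsGalois ℚ L] {m : ℕ} [hm : Fact m.Prime]
  {M : Type} [Field M] [NumberField M] [Algebra L M] [IsCyclotomicExtension {m} L M]

/-- If `[L(ζ_m) : L] = m - 1`, every `σ ∈ Gal(L/ℚ)` extends to `L(ζ_m)` with a prescribed
action on `ζ_m`. -/
theorem exists_aut_extending (hdeg : Module.finrank L M = m - 1) {ζ : M}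
    (hζ : IsPrimitiveRoot ζ m) (σ : L ≃ₐ[ℚ] L) (b : (ZMod m)ˣ) :
    ∃ g : M ≃ₐ[ℚ] M, (∀ x : L, g (algebraMap L M x) = algebraMap L M (σ x)) ∧
      hζ.autToPow ℚ g = b := by
  have hgal : IsGalois ℚ M := isGalois_rat_cyclotomic L m M
  let σ' : M ≃ₐ[ℚ] M := σ.liftNormal M
  have hgalL : IsGalois L M := IsCyclotomicExtension.isGalois {m} L M
  have hinj : Function.Injective (hζ.autToPow L) := hζ.autToPow_injective L
  have hcard : Nat.card (M ≃ₐ[L] M) = Nat.card (ZMod m)ˣ := by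
    rw [IsGalois.card_aut_eq_finrank, hdeg, Nat.card_eq_fintype_card,
      ZMod.card_units_eq_totient, Nat.totient_prime hm.out]
  have hbij : Function.Bijective (hζ.autToPow L) :=
    (Nat.bijective_iff_injective_and_card _).mpr ⟨hinj, hcard⟩
  obtain ⟨τ, hτ⟩ := hbij.2 ((hζ.autToPow ℚ σ')⁻¹ * b)
  refine ⟨σ' * τ.restrictScalars ℚ, ?_, ?_⟩
  · intro x
    rw [AlgEquiv.mul_apply]
    have h1 : (τ.restrictScalars ℚ) (algebraMap L M x) = algebraMap L M x := τ.commutes x
    rw [h1]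
    exact AlgEquiv.liftNormal_commutes σ M x
  · rw [map_mul, autToPow_restrictScalars, hτ, mul_inv_cancel_left]

/-- The crossing automorphism: an extension `g` of `σ` to `M = L(ζ_m)` acting on `ζ_m` through a
primitive root `t` modulo `m`; it has order `m - 1` and no non-trivial power of it fixes `ζ_m`. -/
theorem exists_crossing_aut (hdeg : Module.finrank L M = m - 1) {ζ : M}
    (hζ : IsPrimitiveRoot ζ m) (σ : L ≃ₐ[ℚ] L) (hn : orderOf σ ∣ m - 1) :
    ∃ (g : M ≃ₐ[ℚ] M) (t : ℕ), ¬ m ∣ t ∧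
      (∀ x : L, g (algebraMap L M x) = algebraMap L M (σ x)) ∧ g ζ = ζ ^ t ∧
      orderOf g = m - 1 ∧ ∀ k : ℕ, (g ^ k) ζ = ζ → g ^ k = 1 := by
  have : Fact (1 < m) := ⟨hm.out.one_lt⟩
  obtain ⟨b, hb⟩ := IsCyclic.exists_generator (α := (ZMod m)ˣ)
  have hcardU : Nat.card (ZMod m)ˣ = m - 1 := by
    rw [Nat.card_eq_fintype_card, ZMod.card_units_eq_totient, Nat.totient_prime hm.out]
  have hordb : orderOf b = m - 1 := by
    rw [orderOf_eq_card_of_forall_mem_zpowers hb, hcardU]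
  obtain ⟨g, hgL, hgb⟩ := exists_aut_extending hdeg hζ σ b
  have hspec : ∀ k : ℕ, (g ^ k) ζ = ζ ^ ((b ^ k : (ZMod m)ˣ) : ZMod m).val := by
    intro k
    rw [← hgb, ← map_pow]
    exact (hζ.autToPow_spec ℚ (g ^ k)).symm
  -- `g ^ (m - 1) = 1`
  have hpow : g ^ (m - 1) = 1 := by
    apply algEquiv_ext_of_adjoin (L := L) hζ
    · intro x
      rw [pow_apply_algebraMap σ g hgL, orderOf_dvd_iff_pow_eq_one.mp hn]
      simp
    · rw [hspec, ← hordb, pow_orderOf_eq_one]
      simp [ZMod.val_one]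
  have hord : orderOf g = m - 1 := by
    apply Nat.dvd_antisymm (orderOf_dvd_of_pow_eq_one hpow)
    rw [← hordb, ← hgb]
    exact orderOf_map_dvd _ g
  refine ⟨g, ((b : (ZMod m)ˣ) : ZMod m).val, ?_, hgL, ?_, hord, ?_⟩
  · intro hdvd
    have h0 : (((b : (ZMod m)ˣ) : ZMod m).val : ZMod m) = 0 :=
      (ZMod.natCast_eq_zero_iff _ _).mpr hdvd
    rw [ZMod.natCast_zmod_val] at h0
    exact b.ne_zero h0
  · have := hspec 1
    simpa using this
  · intro k hk
    rw [hspec k] at hk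
    have h1 : ((b ^ k : (ZMod m)ˣ) : ZMod m).val = 1 := by
      have h2 : ζ ^ ((b ^ k : (ZMod m)ˣ) : ZMod m).val = ζ ^ 1 := by rw [hk, pow_one]
      exact hζ.pow_inj (ZMod.val_lt _) hm.out.one_lt h2
    have h3 : (b ^ k : (ZMod m)ˣ) = 1 := by
      apply Units.ext
      apply ZMod.val_injective m
      rw [h1, Units.val_one, ZMod.val_one]
    have h4 : m - 1 ∣ k := by
      rw [← hordb]
      exact orderOf_dvd_of_pow_eq_one h3
    rw [← hord] at h4
    exact orderOf_dvd_iff_pow_eq_one.mp h4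

end

end Fermat.Agent.H87.Cheb
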