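import Mathlib
import Fermat.Agent.H87.Cheb.Crossing2

/-!
# P-CHEB, CHEB-B part 3: the fixed field of the crossing automorphism, and the field-crossing
argument `NormClassPrimesStatement → ChebotarevNFStatement`.
-/

set_option autoImplicit false

open scoped NumberField
open Polynomial

namespace Fermat.Agent.H87.Cheb

section FixedField

variable {M : Type} [Field M] [NumberField M] [IsGalois ℚ M] {m : ℕ} [NeZero m]

omit [IsGalois ℚ M] in
/-- The degree of `M` over the fixed field of `g`. -/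
theorem finrank_fixedField_zpowers (g : M ≃ₐ[ℚ] M) :
    Module.finrank (IntermediateField.fixedField (Subgroup.zpowers g)) M = orderOf g := by
  rw [IntermediateField.finrank_fixedField_eq_card, Nat.card_zpowers]

/-- If no non-trivial power of `g` fixes `ζ`, then `M` is generated by `ζ` over the fixed field
of `g`. -/
theorem fixedField_isCyclotomic {ζ : M} (hζ : IsPrimitiveRoot ζ m) (g : M ≃ₐ[ℚ] M)
    (hfix : ∀ g' ∈ Subgroup.zpowers g, g' ζ = ζ → g' = 1) :
    IsCyclotomicExtension {m} (IntermediateField.fixedField (Subgroup.zpowers g)) M := by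
  set E := IntermediateField.fixedField (Subgroup.zpowers g) with hE
  have hfixE : E.fixingSubgroup = Subgroup.zpowers g :=
    IntermediateField.fixingSubgroup_fixedField _
  let K' : IntermediateField E M := IntermediateField.adjoin E {ζ}
  have hbot : K'.fixingSubgroup = ⊥ := by
    rw [eq_bot_iff]
    intro φ hφ
    rw [IntermediateField.mem_fixingSubgroup_iff] at hφ
    have hφζ : φ ζ = ζ := hφ ζ (IntermediateField.mem_adjoin_simple_self E ζ)
    have hmem : φ.restrictScalars ℚ ∈ Subgroup.zpowers g := by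
      rw [← hfixE, IntermediateField.mem_fixingSubgroup_iff]
      intro x hx
      exact φ.commutes ⟨x, hx⟩
    have h1 : φ.restrictScalars ℚ = 1 := hfix _ hmem hφζ
    rw [Subgroup.mem_bot]
    ext x
    have := congrArg (fun ψ : M ≃ₐ[ℚ] M => ψ x) h1
    simpa using this
  have htop : K' = ⊤ := by
    rw [← IsGalois.fixedField_fixingSubgroup K', hbot, IntermediateField.fixedField_bot]
  rw [IsCyclotomicExtension.iff_singleton]
  refine ⟨⟨ζ, hζ⟩, fun x => ?_⟩
  have hx : x ∈ K'.toSubalgebra := by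
    rw [htop]
    exact Algebra.mem_top
  have halg : IsAlgebraic E ζ := Algebra.IsAlgebraic.isAlgebraic ζ
  rw [IntermediateField.adjoin_simple_toSubalgebra_of_isAlgebraic halg] at hx
  refine Algebra.adjoin_mono ?_ hx
  intro y hy
  rw [Set.mem_singleton_iff] at hy
  subst hy
  exact hζ.pow_eq_one

end FixedField

/-- **CHEB-B** (field crossing): Dirichlet's theorem for norms of degree-one primes implies
Chebotarev's theorem (existence form) for Galois number fields. -/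
theorem chebotarevNF_of_normClassPrimes (h : NormClassPrimesStatement) :
    ChebotarevNFStatement := by
  intro L _ _ _ σ S
  -- choice of the auxiliary prime `m`
  have hn0 : orderOf σ ≠ 0 := (orderOf_pos σ).ne'
  obtain ⟨m, hmprime, hmB, hm1⟩ :=
    Nat.exists_prime_gt_modEq_one (S.sup id + (NumberField.discr L).natAbs + 2) hn0
  have hmfact : Fact m.Prime := ⟨hmprime⟩
  have : NeZero m := ⟨hmprime.ne_zero⟩
  have hdisc : ¬ (m : ℤ) ∣ NumberField.discr L := by
    intro hd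
    have h0 : NumberField.discr L ≠ 0 := NumberField.discr_ne_zero L
    have h1 : m ∣ (NumberField.discr L).natAbs := by
      have := Int.natAbs_dvd_natAbs.mpr hd
      simpa using this
    have h2 := Nat.le_of_dvd (Int.natAbs_pos.mpr h0) h1
    omega
  have hn : orderOf σ ∣ m - 1 := (Nat.modEq_iff_dvd' hmprime.one_lt.le).mp hm1.symm
  -- the field `M = L(ζ_m)`
  let M := CyclotomicField m L
  have hdeg : Module.finrank L M = m - 1 := finrank_cyclotomic_of_not_dvd_discr L m hdisc M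
  have hgal : IsGalois ℚ M := isGalois_rat_cyclotomic L m M
  obtain ⟨ζ, hζ⟩ := IsCyclotomicExtension.exists_isPrimitiveRoot L M (Set.mem_singleton m)
    (NeZero.ne m)
  obtain ⟨g, t, hmt, hgL, hgζ, hord, hfixN⟩ := exists_crossing_aut hdeg hζ σ hn
  have hfix : ∀ g' ∈ Subgroup.zpowers g, g' ζ = ζ → g' = 1 := by
    intro g' hg' hζ'
    obtain ⟨k, rfl⟩ := (mem_powers_iff_mem_zpowers.mpr hg')
    exact hfixN k hζ'
  -- the fixed field of `g`
  let E := IntermediateField.fixedField (Subgroup.zpowers g)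
  have hfixE : E.fixingSubgroup = Subgroup.zpowers g :=
    IntermediateField.fixingSubgroup_fixedField _
  have hE : IsCyclotomicExtension {m} E M := fixedField_isCyclotomic hζ g hfix
  have hEdeg : Module.finrank E M = m - 1 := by
    rw [finrank_fixedField_zpowers, hord]
  -- the analytic input
  obtain ⟨𝔮, h𝔮prime, hℓprime, hℓS, hℓt⟩ := h E m M hEdeg t hmt (insert m S)
  set ℓ := Ideal.absNorm 𝔮 with hℓ
  have hℓm : ℓ ≠ m := fun hh => hℓS (hh ▸ Finset.mem_insert_self m S)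
  have hℓS' : ℓ ∉ S := fun hh => hℓS (Finset.mem_insert_of_mem hh)
  have h𝔮0 : 𝔮 ≠ ⊥ := by
    rintro rfl
    rw [hℓ, Ideal.absNorm_bot] at hℓprime
    exact Nat.not_prime_zero hℓprime
  have h𝔮max : 𝔮.IsMaximal := h𝔮prime.isMaximal h𝔮0
  -- a prime of `M` over `𝔮`
  obtain ⟨𝔔, h𝔔max, h𝔔over⟩ := Ideal.exists_maximal_ideal_liesOver_of_isIntegral (S := 𝓞 M) 𝔮
  have h𝔔prime : 𝔔.IsPrime := h𝔔max.isPrime
  have h𝔔under : 𝔔.under (𝓞 E) = 𝔮 := h𝔔over.over.symm
  have hℓ𝔔 : ((ℓ : ℕ) : 𝓞 M) ∈ 𝔔 := by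
    have h1 : ((ℓ : ℕ) : 𝓞 E) ∈ 𝔔.under (𝓞 E) := by
      rw [h𝔔under]
      exact Ideal.absNorm_mem 𝔮
    rw [Ideal.under_def, Ideal.mem_comap] at h1
    simpa using h1
  have h𝔔0 : 𝔔 ≠ ⊥ := by
    rintro rfl
    have h1 : ((ℓ : ℕ) : 𝓞 M) = 0 := by simpa using hℓ𝔔
    exact hℓprime.ne_zero (Nat.cast_eq_zero.mp h1)
  have hm𝔔 : ((m : ℕ) : 𝓞 M) ∉ 𝔔 := by
    intro hm𝔔
    have hcop : Nat.Coprime m ℓ := (Nat.coprime_primes hmprime hℓprime).mpr (Ne.symm hℓm)
    have h1 : ((Nat.gcd m ℓ : ℕ) : 𝓞 M) ∈ 𝔔 := by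
      have hb := Nat.gcd_eq_gcd_ab m ℓ
      have h2 : (((Nat.gcd m ℓ : ℕ) : ℤ) : 𝓞 M) ∈ 𝔔 := by
        rw [hb]
        push_cast
        exact 𝔔.add_mem (𝔔.mul_mem_right _ hm𝔔) (𝔔.mul_mem_right _ hℓ𝔔)
      simpa using h2
    rw [hcop] at h1
    exact h𝔔prime.ne_top (𝔔.eq_top_of_isUnit_mem (by simpa using h1) isUnit_one)
  -- the Frobenius at `𝔔`
  have : Finite (𝓞 M ⧸ 𝔔) := Ideal.finiteQuotientOfFreeOfNeBot 𝔔 h𝔔0
  obtain ⟨φ, hφ⟩ := IsArithFrobAt.exists_of_isInvariant (𝓞 E) Gal(M/E) 𝔔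
  have hcard : Nat.card (𝓞 E ⧸ 𝔔.under (𝓞 E)) = ℓ := by
    rw [h𝔔under, hℓ, Ideal.absNorm_apply, Submodule.cardQuot_apply]
  -- `φ ζ = ζ ^ ℓ = ζ ^ t = g ζ`
  have hζ'pow : hζ.toInteger ^ m = 1 := hζ.toInteger_isPrimitiveRoot.pow_eq_one
  have h1 := AlgHom.IsArithFrobAt.apply_of_pow_eq_one hφ hζ'pow hm𝔔
  rw [hcard] at h1
  have h2 : φ ζ = ζ ^ ℓ := by
    have h1' := congrArg (algebraMap (𝓞 M) M) h1
    rw [map_pow] at h1'
    exact h1'
  have h3 : ζ ^ ℓ = ζ ^ t := by
    rw [pow_eq_pow_mod ℓ hζ.pow_eq_one, pow_eq_pow_mod t hζ.pow_eq_one, hℓt]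
  have hφmem : φ.restrictScalars ℚ ∈ Subgroup.zpowers g := by
    rw [← hfixE, IntermediateField.mem_fixingSubgroup_iff]
    intro x hx
    exact φ.commutes ⟨x, hx⟩
  have hφg : φ.restrictScalars ℚ = g := by
    have h4 : g⁻¹ * φ.restrictScalars ℚ = 1 := by
      apply hfix
      · exact Subgroup.mul_mem _ (Subgroup.inv_mem _ (Subgroup.mem_zpowers g)) hφmem
      · rw [AlgEquiv.mul_apply]
        have : (φ.restrictScalars ℚ) ζ = g ζ := by
          rw [hgζ, ← h3, ← h2]
          rfl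
        rw [this]
        exact g.symm_apply_apply ζ
    exact (inv_mul_eq_one.mp h4).symm
  -- conclusion
  refine ⟨ℓ, 𝔔.comap (algebraMap (𝓞 L) (𝓞 M)), hℓprime, hℓS', Ideal.comap_isPrime _ _, ?_, ?_⟩
  · rw [Ideal.mem_comap]
    simpa using hℓ𝔔
  · intro x
    rw [Ideal.mem_comap, map_sub, map_pow]
    have h5 := hφ (algebraMap (𝓞 L) (𝓞 M) x)
    rw [hcard] at h5
    have h6 : algebraMap (𝓞 L) (𝓞 M) (NumberField.RingOfIntegers.mapRingEquiv σ.toRingEquiv x) =
        (MulSemiringAction.toAlgHom (𝓞 E) (𝓞 M) φ) (algebraMap (𝓞 L) (𝓞 M) x) := by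
      apply NumberField.RingOfIntegers.ext
      have h7 : g (algebraMap L M (x : L)) = algebraMap L M (σ (x : L)) := hgL x
      have h8 : φ (algebraMap L M (x : L)) = g (algebraMap L M (x : L)) := by
        rw [← hφg]
        rfl
      change algebraMap L M (σ (x : L)) = φ (algebraMap L M (x : L))
      rw [h8, h7]
    rw [h6]
    exact h5

end Fermat.Agent.H87.Cheb
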