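import Fermat.Agent.H62.Cheb2.Interfaces
import Fermat.Agent.H39.ChebCounting
import Fermat.Agent.H73.ChebBridgeCore

/-!
# P-CHEB phase 2, row CH2-SPLIT: `SplitCountStatement`

`K/ℚ` Galois containing a primitive `m`-th root of unity `ζ`, `D ≤ Gal(K/ℚ)` acting faithfully on
`ζ`, `D' ≤ D`, `p ∤ m` unramified in `K`.  Then
`|D'| · #{𝔮 ⊂ 𝓞 (K^{D'}) : N𝔮 = p}` equals `|D| · #{𝔮 ⊂ 𝓞 (K^D) : N𝔮 = p}` if some element of `D'`
acts on `ζ` as the `p`-th power map, and `0` otherwise.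
-/

set_option autoImplicit false

open NumberField Ideal IsDedekindDomain
open scoped Pointwise

namespace Fermat.Agent.H87.Cheb

open Fermat.Agent.H62.Cheb Fermat.Agent.H62.Cheb2

section

variable {K : Type} [Field K] [NumberField K] [IsGalois ℚ K]

/-- At a prime `P` of `𝓞 K` over an unramified rational prime `p ∤ m` there is a Frobenius
element: it generates the decomposition group and raises the primitive `m`-th root of unity `ζ`
to the `p`-th power. -/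
theorem exists_frob_zpowers_eq_stabilizer {m : ℕ} [NeZero m] {ζ : K} (hζ : IsPrimitiveRoot ζ m)
    {p : ℕ} (hp : p.Prime) (hpm : ¬ p ∣ m) (hdisc : ¬ ((p : ℤ) ∣ NumberField.discr K))
    (P : Ideal (𝓞 K)) [hP : P.IsPrime] (hpP : ((p : ℕ) : 𝓞 K) ∈ P) :
    ∃ τ : K ≃ₐ[ℚ] K, Subgroup.zpowers τ = MulAction.stabilizer (K ≃ₐ[ℚ] K) P ∧ τ ζ = ζ ^ p := by
  classical
  have hp' : Prime (p : ℤ) := Nat.prime_iff_prime_int.mp hp
  have hun : Algebra.IsUnramifiedAt ℤ P :=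
    (NumberField.not_dvd_discr_iff_forall_mem K (𝓞 K) hp').mp hdisc P inferInstance
      (by simpa using hpP)
  have hlo : P.LiesOver (Ideal.span {(p : ℤ)}) :=
    Fermat.Agent.H73.ChebCore.liesOver_span_of_mem hp P hpP
  have hP0 : P ≠ ⊥ := by
    intro h0
    rw [h0, Ideal.mem_bot] at hpP
    exact hp.ne_zero (by exact_mod_cast hpP)
  have hfin : Finite (𝓞 K ⧸ P) := Ideal.finiteQuotientOfFreeOfNeBot P hP0
  obtain ⟨τ, hτ⟩ := IsArithFrobAt.exists_of_isInvariant ℤ (K ≃ₐ[ℚ] K) P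
  have hcard : Nat.card (ℤ ⧸ P.under ℤ) = p := by
    rw [← hlo.over, Int.card_ideal_quot]
  have hτ' : ∀ x : 𝓞 K, τ • x - x ^ p ∈ P := by
    intro x
    have h1 := hτ x
    rw [hcard] at h1
    exact h1
  refine ⟨τ, Fermat.Agent.H73.ChebCore.zpowers_eq_stabilizer_of_frob hp P hpP hun τ hτ', ?_⟩
  -- `m ∉ P`
  have hmP : ((m : ℕ) : 𝓞 K) ∉ P := by
    intro hmP
    have hcop : Nat.Coprime m p := (Nat.Coprime.symm ((Nat.Prime.coprime_iff_not_dvd hp).mpr hpm))
    have h1 : ((Nat.gcd m p : ℕ) : 𝓞 K) ∈ P := by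
      have hb := Nat.gcd_eq_gcd_ab m p
      have h2 : (((Nat.gcd m p : ℕ) : ℤ) : 𝓞 K) ∈ P := by
        rw [hb]
        push_cast
        exact P.add_mem (P.mul_mem_right _ hmP) (P.mul_mem_right _ hpP)
      simpa using h2
    rw [hcop] at h1
    exact hP.ne_top (P.eq_top_of_isUnit_mem (by simpa using h1) isUnit_one)
  have hζ'pow : hζ.toInteger ^ m = 1 := hζ.toInteger_isPrimitiveRoot.pow_eq_one
  have h1 := AlgHom.IsArithFrobAt.apply_of_pow_eq_one hτ hζ'pow hmP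
  rw [hcard] at h1
  have h1' := congrArg (algebraMap (𝓞 K) K) h1
  rw [map_pow] at h1'
  exact h1'

end

/-- **CH2-SPLIT**. -/
theorem splitCount : SplitCountStatement := by
  classical
  intro K _ _ _ m _ ζ hζ D hD D' hD' p hp hpm hdisc
  rw [Fermat.Agent.H39.counting K D' p hp hdisc, Fermat.Agent.H39.counting K D p hp hdisc]
  by_cases hex : ∃ g ∈ D', g ζ = ζ ^ p
  · rw [if_pos hex]
    obtain ⟨g, hgD', hgζ⟩ := hex
    unfold pairCount
    refine Nat.card_congr (Equiv.subtypeEquivRight ?_)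
    rintro ⟨v, h⟩
    refine and_congr_right fun hpv => and_congr_right fun _ => ⟨fun hle => hle.trans hD', ?_⟩
    intro hle
    have : v.asIdeal.IsPrime := v.isPrime
    obtain ⟨τ, hτZ, hτζ⟩ := exists_frob_zpowers_eq_stabilizer hζ hp hpm hdisc v.asIdeal hpv
    have hτD : τ ∈ D := hle (hτZ ▸ Subgroup.mem_zpowers τ)
    have h1 : g⁻¹ * τ = 1 := by
      apply hD _ (D.mul_mem (D.inv_mem (hD' hgD')) hτD)
      rw [AlgEquiv.mul_apply, hτζ, ← hgζ]
      exact g.symm_apply_apply ζ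
    have hτg : τ = g := (inv_mul_eq_one.mp h1).symm
    rw [← hτZ, Subgroup.zpowers_le, hτg]
    exact hgD'
  · rw [if_neg hex]
    unfold pairCount
    rw [Nat.card_eq_zero]
    left
    refine ⟨?_⟩
    rintro ⟨⟨v, h⟩, hpv, _, hle⟩
    have : v.asIdeal.IsPrime := v.isPrime
    obtain ⟨τ, hτZ, hτζ⟩ := exists_frob_zpowers_eq_stabilizer hζ hp hpm hdisc v.asIdeal hpv
    exact hex ⟨τ, hle (hτZ ▸ Subgroup.mem_zpowers τ), hτζ⟩

end Fermat.Agent.H87.Cheb
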