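import Mathlib
import Fermat.Agent.H62.Cheb.Interfaces

/-!
# P-CHEB row 280: Moebius inversion over the subgroups of a finite cyclic group

* `card_zpowers_pow` : `#⟨σ ^ d⟩ = ord σ / d` for `d ∣ ord σ`;
* `sum_moebius_mul_div` : `∑_{d ∣ c} μ(d) (c / d) = φ(c)`;
* `sum_moebius_dvd` : `∑_{d ∣ c, d ∣ k} μ(d) = [k = 1]` for `k ∣ c`;
* `le_zpowers_pow_iff` : for `Z ≤ ⟨σ⟩`, `d ∣ ord σ`: `Z ≤ ⟨σ ^ d⟩ ↔ d ∣ ord σ / #Z`;
* `groupMoebius : Fermat.Agent.H62.Cheb.GroupMoebiusStatement`.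
-/

set_option autoImplicit false

open scoped Classical

namespace Fermat.Agent.H87.Cheb

/-- `#⟨σ ^ d⟩ = ord σ / d` for `d ∣ ord σ`. -/
theorem card_zpowers_pow (G : Type) [Group G] [Finite G] (σ : G) {d : ℕ} (hd : d ∣ orderOf σ) :
    Nat.card (Subgroup.zpowers (σ ^ d)) = orderOf σ / d := by
  rw [Nat.card_zpowers, orderOf_pow, Nat.gcd_eq_right hd]

/-- `∑_{d ∣ k} μ(d) = [k = 1]`. -/
theorem sum_moebius_divisors (k : ℕ) :
    ∑ d ∈ k.divisors, (ArithmeticFunction.moebius d : ℤ) = if k = 1 then 1 else 0 := by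
  have h := congrArg (fun f : ArithmeticFunction ℤ => f k) ArithmeticFunction.moebius_mul_coe_zeta
  simp only [ArithmeticFunction.coe_mul_zeta_apply] at h
  rw [h, ArithmeticFunction.one_apply]

/-- `∑_{d ∣ c} μ(d) (c / d) = φ(c)`. -/
theorem sum_moebius_mul_div (c : ℕ) (hc : 0 < c) :
    ∑ d ∈ c.divisors, (ArithmeticFunction.moebius d : ℤ) * ((c / d : ℕ) : ℤ) =
      (Nat.totient c : ℤ) := by
  have h := (ArithmeticFunction.sum_eq_iff_sum_mul_moebius_eq (R := ℤ)
    (f := fun n => (Nat.totient n : ℤ)) (g := fun n => (n : ℤ))).1 (by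
      intro n _
      have := Nat.sum_totient n
      exact_mod_cast this) c hc
  rw [← h]
  exact (Nat.sum_divisorsAntidiagonal
    (f := fun a b => (ArithmeticFunction.moebius a : ℤ) * ((b : ℕ) : ℤ))).symm

/-- `∑_{d ∣ c} μ(d) [d ∣ k] = [k = 1]` for `k ∣ c`, `c > 0`. -/
theorem sum_moebius_dvd (c k : ℕ) (hc : 0 < c) (hk : k ∣ c)
    (P : ℕ → Prop) [DecidablePred P] (hP : ∀ d, d ∣ c → (P d ↔ d ∣ k)) :
    ∑ d ∈ c.divisors, (ArithmeticFunction.moebius d : ℤ) * (if P d then 1 else 0) =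
      if k = 1 then 1 else 0 := by
  have hk0 : 0 < k := Nat.pos_of_dvd_of_pos hk hc
  rw [← sum_moebius_divisors k]
  have hsub : k.divisors ⊆ c.divisors := Nat.divisors_subset_of_dvd hc.ne' hk
  rw [← Finset.sum_subset hsub (f := fun d =>
    (ArithmeticFunction.moebius d : ℤ) * (if P d then 1 else 0))]
  · refine Finset.sum_congr rfl fun d hd => ?_
    have hdk : d ∣ k := Nat.dvd_of_mem_divisors hd
    rw [if_pos ((hP d (hdk.trans hk)).2 hdk), mul_one]
  · intro d hd hdn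
    have hdc : d ∣ c := Nat.dvd_of_mem_divisors hd
    have : ¬ P d := fun h => hdn (Nat.mem_divisors.2 ⟨(hP d hdc).1 h, hk0.ne'⟩)
    rw [if_neg this, mul_zero]

/-- for `Z ≤ ⟨σ⟩` and `d ∣ ord σ`: `Z ≤ ⟨σ ^ d⟩ ↔ d ∣ ord σ / #Z`. -/
theorem le_zpowers_pow_iff (G : Type) [Group G] [Finite G] (σ : G) (Z : Subgroup G)
    (hZ : Z ≤ Subgroup.zpowers σ) {d : ℕ} (hd : d ∣ orderOf σ) :
    Z ≤ Subgroup.zpowers (σ ^ d) ↔ d ∣ orderOf σ / Nat.card Z := by
  have hc : 0 < orderOf σ := orderOf_pos σ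
  have hn : Nat.card Z ∣ orderOf σ := by
    rw [← Nat.card_zpowers]
    exact Subgroup.card_dvd_of_le hZ
  have hn0 : 0 < Nat.card Z := Nat.card_pos
  constructor
  · intro h
    have h1 : Nat.card Z ∣ orderOf σ / d := by
      rw [← card_zpowers_pow G σ hd]
      exact Subgroup.card_dvd_of_le h
    obtain ⟨e, he⟩ := h1
    have h2 : orderOf σ = d * (Nat.card Z * e) := by
      rw [← he, Nat.mul_div_cancel' hd]
    have h3 : orderOf σ / Nat.card Z = d * e := by
      rw [h2]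
      rw [show d * (Nat.card Z * e) = Nat.card Z * (d * e) by ring]
      exact Nat.mul_div_cancel_left _ hn0
    rw [h3]
    exact dvd_mul_right d e
  · intro h x hx
    obtain ⟨j, hj⟩ := (Subgroup.mem_zpowers_iff).1 (hZ hx)
    -- `x ^ #Z = 1`
    have hx1 : x ^ Nat.card Z = 1 := by
      have h1 : (⟨x, hx⟩ : Z) ^ Nat.card Z = 1 := pow_card_eq_one'
      have h2 := congrArg (Subtype.val) h1
      rwa [Subgroup.coe_pow, Subgroup.coe_one] at h2
    have hσ : σ ^ (j * (Nat.card Z : ℤ)) = 1 := by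
      rw [zpow_mul, hj, zpow_natCast, hx1]
    have hdvd : (orderOf σ : ℤ) ∣ j * (Nat.card Z : ℤ) := orderOf_dvd_iff_zpow_eq_one.2 hσ
    obtain ⟨k, hk⟩ := hn
    have hk' : orderOf σ / Nat.card Z = k := by
      rw [hk]; exact Nat.mul_div_cancel_left _ hn0
    rw [hk'] at h
    have hkj : (k : ℤ) ∣ j := by
      rw [hk] at hdvd
      push_cast at hdvd
      rw [mul_comm j] at hdvd
      exact (mul_dvd_mul_iff_left (by exact_mod_cast hn0.ne')).1 hdvd
    have hdj : (d : ℤ) ∣ j := (Int.natCast_dvd_natCast.2 h).trans hkj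
    obtain ⟨m, hm⟩ := hdj
    refine (Subgroup.mem_zpowers_iff).2 ⟨m, ?_⟩
    rw [← hj, hm, zpow_mul, zpow_natCast]

/-- **CHEB-C**: Moebius inversion over the subgroups of a finite cyclic group. -/
theorem groupMoebius : Fermat.Agent.H62.Cheb.GroupMoebiusStatement := by
  intro G _ _ σ Z
  have hc : 0 < orderOf σ := orderOf_pos σ
  by_cases hZ : Z ≤ Subgroup.zpowers σ
  · have hn : Nat.card Z ∣ orderOf σ := by
      rw [← Nat.card_zpowers]
      exact Subgroup.card_dvd_of_le hZ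
    have hn0 : 0 < Nat.card Z := Nat.card_pos
    have hkc : orderOf σ / Nat.card Z ∣ orderOf σ := Nat.div_dvd_of_dvd hn
    have key := sum_moebius_dvd (orderOf σ) (orderOf σ / Nat.card Z) hc hkc
      (fun d => Z ≤ Subgroup.zpowers (σ ^ d))
      (fun d hd => le_zpowers_pow_iff G σ Z hZ hd)
    have hiff : (Z = Subgroup.zpowers σ) ↔ orderOf σ / Nat.card Z = 1 := by
      constructor
      · intro h
        rw [h, Nat.card_zpowers]
        exact Nat.div_self hc
      · intro h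
        have hcard : Nat.card Z = orderOf σ := by
          obtain ⟨k, hk⟩ := hn
          have : orderOf σ / Nat.card Z = k := by
            rw [hk]; exact Nat.mul_div_cancel_left _ hn0
          rw [this] at h
          rw [hk, h, mul_one]
        refine Subgroup.eq_of_le_of_card_ge hZ ?_
        rw [Nat.card_zpowers, hcard]
    calc ∑ d ∈ (orderOf σ).divisors, (ArithmeticFunction.moebius d : ℤ) *
          (if Z ≤ Subgroup.zpowers (σ ^ d) then 1 else 0)
        = if orderOf σ / Nat.card Z = 1 then 1 else 0 := by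
          rw [← key]
      _ = if Z = Subgroup.zpowers σ then 1 else 0 := by
          by_cases h : Z = Subgroup.zpowers σ
          · rw [if_pos h, if_pos (hiff.1 h)]
          · rw [if_neg h, if_neg (fun h' => h (hiff.2 h'))]
  · have hne : Z ≠ Subgroup.zpowers σ := fun h => hZ h.le
    rw [if_neg hne]
    refine Finset.sum_eq_zero fun d _ => ?_
    have : ¬ Z ≤ Subgroup.zpowers (σ ^ d) := fun h =>
      hZ (h.trans (Subgroup.zpowers_le.2 (Subgroup.pow_mem _ (Subgroup.mem_zpowers σ) d)))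
    rw [if_neg this, mul_zero]

end Fermat.Agent.H87.Cheb
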