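import Mathlib

/-!
# P-CHEB phase 2, row CH2-CROSS, step 2: counting in a finite cyclic group

In a finite cyclic group `G` whose order is divisible by `n ^ k`, the elements whose order is
*not* divisible by `n` are rare: `2 ^ k * #{τ : ¬ n ∣ orderOf τ} ≤ |G| * ω(n)`.

Mathlib only.
-/

set_option autoImplicit false

namespace Fermat.Agent.H87.Cheb

open Finset

/-- If `n ∤ d`, some prime power dividing `n` does not divide `d`. -/
theorem exists_prime_pow_dvd_not_dvd {n d : ℕ} (h : ¬ n ∣ d) :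
    ∃ l j : ℕ, l.Prime ∧ l ^ j ∣ n ∧ ¬ l ^ j ∣ d := by
  by_contra hcon
  refine h ((Nat.dvd_iff_prime_pow_dvd_dvd d n).mpr fun p k hp hpk => ?_)
  by_contra hpd
  exact hcon ⟨p, k, hp, hpk, hpd⟩

/-- If `n ^ k ∣ N`, `d ∣ N` and the prime power `l ^ j ∣ n` does not divide `d`, then
`d * l ^ k ∣ N`. -/
theorem mul_prime_pow_dvd_of_not_dvd {N n k d l j : ℕ} (hN : N ≠ 0) (hnk : n ^ k ∣ N)
    (hd : d ∣ N) (hl : l.Prime) (hj : l ^ j ∣ n) (hjd : ¬ l ^ j ∣ d) : d * l ^ k ∣ N := by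
  have hd0 : d ≠ 0 := by
    rintro rfl
    exact hN (Nat.eq_zero_of_zero_dvd hd)
  set e := d.factorization l with he_def
  have he : e < j := by
    by_contra hle
    exact hjd ((hl.pow_dvd_iff_le_factorization hd0).mpr (not_lt.mp hle))
  have h1 : l ^ e * (d / l ^ e) = d := Nat.ordProj_mul_ordCompl_eq_self d l
  have hcop : Nat.Coprime (l ^ (e + k)) (d / l ^ e) :=
    Nat.Coprime.pow_left _ (Nat.coprime_ordCompl hl hd0)
  have h2 : l ^ (e + k) ∣ N := by
    rcases Nat.eq_zero_or_pos k with rfl | hk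
    · exact (Nat.ordProj_dvd d l).trans hd
    · have hle : e + k ≤ j * k := by nlinarith
      have h3 : l ^ (j * k) ∣ n ^ k := by
        rw [pow_mul]
        exact pow_dvd_pow_of_dvd hj k
      exact (pow_dvd_pow l hle).trans (h3.trans hnk)
  have h3 : d / l ^ e ∣ N := (Nat.div_dvd_of_dvd (Nat.ordProj_dvd d l)).trans hd
  have h4 := Nat.Coprime.mul_dvd_of_dvd_of_dvd hcop h2 h3
  have h5 : l ^ (e + k) * (d / l ^ e) = d * l ^ k := by
    rw [pow_add, mul_right_comm, h1]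
  rwa [h5] at h4

/-- **Cyclic counting** (`Finset` form): in a finite cyclic group of order divisible by `n ^ k`,
`2 ^ k * #{τ : ¬ n ∣ orderOf τ} ≤ |G| * ω(n)`. -/
theorem two_pow_mul_card_filter_not_dvd_orderOf_le (G : Type*) [Group G] [Fintype G]
    [DecidableEq G] [IsCyclic G] (n k : ℕ) (hn0 : n ≠ 0) (h : n ^ k ∣ Fintype.card G) :
    2 ^ k * #{τ : G | ¬ n ∣ orderOf τ} ≤ Fintype.card G * n.primeFactors.card := by
  set N := Fintype.card G with hN_def
  have hN : N ≠ 0 := Fintype.card_ne_zero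
  have hlk : ∀ l ∈ n.primeFactors, l ^ k ∣ N := fun l hl =>
    (pow_dvd_pow_of_dvd (Nat.dvd_of_mem_primeFactors hl) k).trans h
  have hsub : ({τ : G | ¬ n ∣ orderOf τ} : Finset G) ⊆
      n.primeFactors.biUnion fun l => ({τ : G | τ ^ (N / l ^ k) = 1} : Finset G) := by
    intro τ hτ
    rw [mem_filter] at hτ
    obtain ⟨l, j, hl, hj, hjd⟩ := exists_prime_pow_dvd_not_dvd hτ.2
    have hj0 : j ≠ 0 := by
      rintro rfl
      exact hjd (by simp)
    have hln : l ∣ n := (dvd_pow_self l hj0).trans hj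
    have hdvd : orderOf τ * l ^ k ∣ N :=
      mul_prime_pow_dvd_of_not_dvd hN h (orderOf_dvd_card) hl hj hjd
    rw [mem_biUnion]
    refine ⟨l, Nat.mem_primeFactors.mpr ⟨hl, hln, hn0⟩, ?_⟩
    rw [mem_filter]
    refine ⟨mem_univ _, ?_⟩
    rw [← orderOf_dvd_iff_pow_eq_one]
    have hlk' : l ^ k ∣ N := (Dvd.intro_left _ rfl).trans hdvd
    exact (Nat.dvd_div_iff_mul_dvd hlk').mpr (by rwa [mul_comm] at hdvd)
  have hcard : #{τ : G | ¬ n ∣ orderOf τ} ≤ ∑ l ∈ n.primeFactors, N / l ^ k := by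
    refine (card_le_card hsub).trans (card_biUnion_le.trans (sum_le_sum fun l hl => ?_))
    refine IsCyclic.card_pow_eq_one_le (Nat.div_pos ?_ (pow_pos (Nat.pos_of_mem_primeFactors hl) k))
    exact Nat.le_of_dvd (Nat.pos_of_ne_zero hN) (hlk l hl)
  calc 2 ^ k * #{τ : G | ¬ n ∣ orderOf τ}
      ≤ 2 ^ k * ∑ l ∈ n.primeFactors, N / l ^ k := Nat.mul_le_mul_left _ hcard
    _ = ∑ l ∈ n.primeFactors, 2 ^ k * (N / l ^ k) := mul_sum _ _ _
    _ ≤ ∑ _l ∈ n.primeFactors, N := by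
        refine sum_le_sum fun l hl => ?_
        calc 2 ^ k * (N / l ^ k) ≤ l ^ k * (N / l ^ k) :=
              Nat.mul_le_mul_right _
                (Nat.pow_le_pow_left (Nat.prime_of_mem_primeFactors hl).two_le k)
          _ = N := Nat.mul_div_cancel' (hlk l hl)
    _ = N * n.primeFactors.card := by
        rw [sum_const, smul_eq_mul, mul_comm]

/-- **Cyclic counting** (`Nat.card` form). -/
theorem two_pow_mul_card_not_dvd_orderOf_le (G : Type*) [Group G] [Finite G] [IsCyclic G]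
    (n k : ℕ) (hn0 : n ≠ 0) (h : n ^ k ∣ Nat.card G) :
    2 ^ k * Nat.card {τ : G // ¬ n ∣ orderOf τ} ≤ Nat.card G * n.primeFactors.card := by
  classical
  have := Fintype.ofFinite G
  rw [Nat.card_eq_fintype_card] at h
  have h1 := two_pow_mul_card_filter_not_dvd_orderOf_le G n k hn0 h
  rw [← Fintype.card_subtype] at h1
  rw [Nat.card_eq_fintype_card, Nat.card_eq_fintype_card]
  exact h1

/-- **Cyclic counting** (real form): the proportion of elements whose order is not divisible by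
`n` is at most `ω(n) / 2 ^ k`. -/
theorem card_not_dvd_orderOf_le (G : Type*) [Group G] [Finite G] [IsCyclic G]
    (n k : ℕ) (hn0 : n ≠ 0) (h : n ^ k ∣ Nat.card G) :
    (Nat.card {τ : G // ¬ n ∣ orderOf τ} : ℝ) ≤
      (Nat.card G : ℝ) * (n.primeFactors.card : ℝ) / 2 ^ k := by
  have h1 := two_pow_mul_card_not_dvd_orderOf_le G n k hn0 h
  rw [le_div_iff₀ (by positivity), mul_comm]
  exact_mod_cast h1

/-- **Cyclic counting**, complementary form: at least `|G| (1 - ω(n) / 2 ^ k)` elements have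
order divisible by `n`. -/
theorem card_dvd_orderOf_ge (G : Type*) [Group G] [Finite G] [IsCyclic G]
    (n k : ℕ) (hn0 : n ≠ 0) (h : n ^ k ∣ Nat.card G) :
    (Nat.card G : ℝ) * (1 - (n.primeFactors.card : ℝ) / 2 ^ k) ≤
      (Nat.card {τ : G // n ∣ orderOf τ} : ℝ) := by
  classical
  have := Fintype.ofFinite G
  have h1 := card_not_dvd_orderOf_le G n k hn0 h
  have h2 : Nat.card {τ : G // n ∣ orderOf τ} + Nat.card {τ : G // ¬ n ∣ orderOf τ} =
      Nat.card G := by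
    rw [Nat.card_eq_fintype_card, Nat.card_eq_fintype_card, Nat.card_eq_fintype_card,
      Fintype.card_subtype, Fintype.card_subtype, ← Finset.card_univ (α := G)]
    exact Finset.card_filter_add_card_filter_not _
  have h3 : (Nat.card {τ : G // n ∣ orderOf τ} : ℝ) + (Nat.card {τ : G // ¬ n ∣ orderOf τ} : ℝ) =
      (Nat.card G : ℝ) := by exact_mod_cast h2
  have h4 : (Nat.card G : ℝ) * (1 - (n.primeFactors.card : ℝ) / 2 ^ k) =
      (Nat.card G : ℝ) - (Nat.card G : ℝ) * (n.primeFactors.card : ℝ) / 2 ^ k := by ring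
  rw [h4]
  linarith

/-- **Cyclic counting** for `(ℤ/m)ˣ`, `m` prime, `n ^ k ∣ m - 1`: at most `(m - 1) ω(n) / 2 ^ k`
units have order not divisible by `n`. -/
theorem card_units_zmod_not_dvd_orderOf_le {m : ℕ} (hm : m.Prime) (n k : ℕ) (hn0 : n ≠ 0)
    (h : n ^ k ∣ m - 1) :
    (Nat.card {τ : (ZMod m)ˣ // ¬ n ∣ orderOf τ} : ℝ) ≤
      ((m - 1 : ℕ) : ℝ) * (n.primeFactors.card : ℝ) / 2 ^ k := by
  have : Fact m.Prime := ⟨hm⟩
  have hc : Nat.card (ZMod m)ˣ = m - 1 := by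
    rw [Nat.card_eq_fintype_card, ZMod.card_units]
  have h1 := card_not_dvd_orderOf_le (ZMod m)ˣ n k hn0 (by rwa [hc])
  rwa [hc] at h1

/-- **Cyclic counting** for `(ℤ/m)ˣ`, `m` prime, `n ^ k ∣ m - 1`: at least
`(m - 1) (1 - ω(n) / 2 ^ k)` units have order divisible by `n`. -/
theorem card_units_zmod_dvd_orderOf_ge {m : ℕ} (hm : m.Prime) (n k : ℕ) (hn0 : n ≠ 0)
    (h : n ^ k ∣ m - 1) :
    ((m - 1 : ℕ) : ℝ) * (1 - (n.primeFactors.card : ℝ) / 2 ^ k) ≤
      (Nat.card {τ : (ZMod m)ˣ // n ∣ orderOf τ} : ℝ) := by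
  have : Fact m.Prime := ⟨hm⟩
  have hc : Nat.card (ZMod m)ˣ = m - 1 := by
    rw [Nat.card_eq_fintype_card, ZMod.card_units]
  have h1 := card_dvd_orderOf_ge (ZMod m)ˣ n k hn0 (by rwa [hc])
  rwa [hc] at h1

/-- `ω(n) ≤ log₂ n`-type bound is not needed: `ω(n) / 2 ^ k → 0`; explicitly, for every `ε > 0`
there is `k` with `ω(n) / 2 ^ k < ε`. -/
theorem exists_pow_omega_lt (n : ℕ) {ε : ℝ} (hε : 0 < ε) :
    ∃ k : ℕ, (n.primeFactors.card : ℝ) / 2 ^ k < ε := by
  obtain ⟨k, hk⟩ := pow_unbounded_of_one_lt ((n.primeFactors.card : ℝ) / ε) (by norm_num : (1:ℝ) < 2)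
  refine ⟨k, ?_⟩
  rw [div_lt_iff₀ (by positivity)]
  rw [div_lt_iff₀ hε] at hk
  linarith [mul_comm ε ((2:ℝ) ^ k)]

end Fermat.Agent.H87.Cheb
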